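import Fermat.Agent.Descent3.Step

/-!
# `Γ₀(4N)` inside `Γ₀(N)` and the Hecke correspondences

For odd `N`, `γ ↦ diag(2,1) γ diag(2,1)⁻¹` identifies `Γ₀(4N)` with the kernel of reduction modulo
two on `Γ₀(N)`. Conjugation by `Γ₀(N)` and restriction from `Γ₀(2N)` commute with `T_ℓ`.
-/

set_option autoImplicit false

open CongruenceSubgroup ModularGroup
open scoped MatrixGroups

namespace FermatAgent.RTLift.Sq.Two

local notation "M₂" => Matrix (Fin 2) (Fin 2) ℤ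

noncomputable section

/-- Transfers commute with a homomorphism intertwined by an integral matrix. -/
theorem transfer_comp_of_intertwine {Γ Γ' : Subgroup SL(2, ℤ)} {ι : Type} [Fintype ι]
    {R A : Type*} [Semiring R] [AddCommGroup A] [Module R A] (D : Periods.HeckeCorr Γ ι)
    (D' : Periods.HeckeCorr Γ' ι) (θ : Γ →* Γ') {C : M₂} (hC : C.det ≠ 0)
    (hθ : ∀ γ : Γ, C * ((γ : SL(2, ℤ)) : M₂) = ((θ γ : SL(2, ℤ)) : M₂) * C)
    (τ : Equiv.Perm ι) (u : ι → Γ')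
    (hrep : ∀ i, C * D.rep i = ((u i : SL(2, ℤ)) : M₂) * D'.rep (τ i) * C)
    (φ : Additive Γ' →+ A) :
    D.transfer R (φ.comp (MonoidHom.toAdditive θ)) =
      (D'.transfer R φ).comp (MonoidHom.toAdditive θ) := by
  refine AddMonoidHom.ext fun x => ?_
  obtain ⟨γ, rfl⟩ : ∃ γ, Additive.ofMul γ = x := ⟨Additive.toMul x, rfl⟩
  have key : ∀ i, D'.move (θ γ) (τ i) = (u i)⁻¹ * θ (D.move γ i) * u (D.target γ i) := by
    intro i
    refine (D'.move_unique (j := τ (D.target γ i)) ?_).2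
    refine Periods.matrix_mul_right_cancel hC ?_
    have hu : ∀ M : M₂, (((u i)⁻¹ : Γ') : SL(2, ℤ)).1 * ((u i : SL(2, ℤ)).1 * M) = M := fun M => by
      rw [← mul_assoc, ← Matrix.SpecialLinearGroup.coe_mul, ← Subgroup.coe_mul, inv_mul_cancel,
        OneMemClass.coe_one, Matrix.SpecialLinearGroup.coe_one, one_mul]
    have e : ((u i : SL(2, ℤ)) : M₂) * (D'.rep (τ i) * ((θ γ : SL(2, ℤ)) : M₂) * C) =
        ((θ (D.move γ i) : SL(2, ℤ)) : M₂) *
          (((u (D.target γ i) : SL(2, ℤ)) : M₂) * D'.rep (τ (D.target γ i)) * C) := by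
      rw [mul_assoc (D'.rep _), ← hθ, ← mul_assoc (D'.rep _), ← mul_assoc, ← mul_assoc, ← hrep,
        mul_assoc, D.move_spec, ← hrep, ← mul_assoc, ← mul_assoc, hθ]
    rw [← hu (D'.rep (τ i) * _ * C), e]
    simp only [Subgroup.coe_mul, Matrix.SpecialLinearGroup.coe_mul, mul_assoc]
  show ∑ i, φ (Additive.ofMul (θ (D.move γ i))) = ∑ i, φ (Additive.ofMul (D'.move (θ γ) i))
  rw [← Equiv.sum_comp τ fun i => φ (Additive.ofMul (D'.move (θ γ) i))]
  simp only [key, ofMul_mul, ofMul_inv, map_add, map_neg, Finset.sum_add_distrib,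
    Finset.sum_neg_distrib]
  rw [show (∑ i, φ (Additive.ofMul (u (D.target γ i)))) = ∑ i, φ (Additive.ofMul (u i)) from
    Equiv.sum_comp (D.targetEquiv γ) fun i => φ (Additive.ofMul (u i))]
  abel

/-- An integral matrix of prime determinant with lower left entry divisible by `L` is equivalent
to one of the representatives of `T_ℓ`. -/
theorem exists_eq_mul_tRep {L ℓ : ℕ} (hℓ : ℓ.Prime) (hℓL : ¬ ℓ ∣ L) {M : M₂} (hdet : M.det = ℓ)
    (hL : (L : ℤ) ∣ M 1 0) :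
    ∃ (u : Gamma0 L) (i : Option (ZMod ℓ)), M = ((u : SL(2, ℤ)) : M₂) * Periods.tRep ℓ i := by
  have : Fact ℓ.Prime := ⟨hℓ⟩
  have hℓ0 : (ℓ : ℤ) ≠ 0 := by exact_mod_cast hℓ.ne_zero
  rw [Matrix.det_fin_two] at hdet
  by_cases hcol : (ℓ : ℤ) ∣ M 0 0 ∧ (ℓ : ℤ) ∣ M 1 0
  · obtain ⟨⟨a, ha⟩, ⟨c, hc⟩⟩ := hcol
    have hLc : (L : ℤ) ∣ c :=
      (Int.isCoprime_iff_nat_coprime.mpr (by simpa using ((hℓ.coprime_iff_not_dvd.mpr hℓL).symm))
        : IsCoprime (L : ℤ) (ℓ : ℤ)).dvd_of_dvd_mul_left (hc ▸ hL)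
    refine ⟨⟨⟨!![a, M 0 1; c, M 1 1], ?_⟩, Gamma0_mem.mpr ?_⟩, none, ?_⟩
    · rw [Matrix.det_fin_two_of]
      rw [ha, hc] at hdet
      exact mul_left_cancel₀ hℓ0 (by linear_combination hdet)
    · exact (ZMod.intCast_zmod_eq_zero_iff_dvd _ _).mpr hLc
    · ext i j
      fin_cases i <;> fin_cases j <;>
        simp [Periods.tRep, Periods.diagRep, Matrix.mul_apply, Fin.sum_univ_two, ha, hc, mul_comm]
  · obtain ⟨y, hy1, hy2⟩ : ∃ y : ZMod ℓ, (M 0 1 : ZMod ℓ) = y * M 0 0 ∧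
        (M 1 1 : ZMod ℓ) = y * M 1 0 := by
      have hd := congrArg (Int.cast : ℤ → ZMod ℓ) hdet
      push_cast at hd
      rw [ZMod.natCast_self] at hd
      rcases not_and_or.mp hcol with h | h <;>
        rw [← ZMod.intCast_zmod_eq_zero_iff_dvd] at h
      · refine ⟨(M 0 1 : ZMod ℓ) / M 0 0, by field_simp, ?_⟩
        field_simp
        linear_combination hd
      · refine ⟨(M 1 1 : ZMod ℓ) / M 1 0, ?_, by field_simp⟩
        field_simp
        linear_combination -hd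
    obtain ⟨b, hb⟩ : (ℓ : ℤ) ∣ M 0 1 - (y.val : ℤ) * M 0 0 := by
      rw [← ZMod.intCast_zmod_eq_zero_iff_dvd]
      simp [hy1]
    obtain ⟨d, hd⟩ : (ℓ : ℤ) ∣ M 1 1 - (y.val : ℤ) * M 1 0 := by
      rw [← ZMod.intCast_zmod_eq_zero_iff_dvd]
      simp [hy2]
    refine ⟨⟨⟨!![M 0 0, b; M 1 0, d], ?_⟩, Gamma0_mem.mpr ?_⟩, some y, ?_⟩
    · rw [Matrix.det_fin_two_of]
      exact mul_left_cancel₀ hℓ0 (by linear_combination hdet - M 0 0 * hd + M 1 0 * hb)
    · exact (ZMod.intCast_zmod_eq_zero_iff_dvd _ _).mpr hL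
    · ext i j
      fin_cases i <;> fin_cases j <;>
        simp [Periods.tRep, Periods.upperRep, Matrix.mul_apply, Fin.sum_univ_two,
          -ZMod.natCast_val]
      · linear_combination hb
      · linear_combination hd

/-- `diag(2, 1)`. -/
def dblMat : M₂ := !![2, 0; 0, 1]

/-- `diag(1, 2)`. -/
def dblMat' : M₂ := !![1, 0; 0, 2]

theorem det_dblMat : dblMat.det = 2 := by simp [dblMat, Matrix.det_fin_two_of]

theorem dblMat'_mul : dblMat' * dblMat = (2 : ℤ) • 1 := by decide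

variable {N : ℕ}

/-- Reduction modulo two. -/
def redTwo (N : ℕ) : Gamma0 N →* SL(2, ZMod 2) :=
  (Matrix.SpecialLinearGroup.map (Int.castRingHom (ZMod 2))).comp (Gamma0 N).subtype

theorem redTwo_apply (γ : Gamma0 N) (i j : Fin 2) :
    redTwo N γ i j = (((γ : SL(2, ℤ)) i j : ℤ) : ZMod 2) := rfl

theorem redTwo_eq_one_iff (γ : Gamma0 N) :
    redTwo N γ = 1 ↔ (2 : ℤ) ∣ (γ : SL(2, ℤ)) 0 1 ∧ (2 : ℤ) ∣ (γ : SL(2, ℤ)) 1 0 := by
  simp only [← even_iff_two_dvd, ← ZMod.intCast_eq_zero_iff_even]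
  refine ⟨fun h => ⟨?_, ?_⟩, fun h => ?_⟩
  · rw [← redTwo_apply γ 0 1, h]; rfl
  · rw [← redTwo_apply γ 1 0, h]; rfl
  · have key : ∀ a d : ZMod 2, a * d = 1 → a = 1 ∧ d = 1 := by decide
    have hd := congrArg (Int.cast : ℤ → ZMod 2) ((γ : SL(2, ℤ)).2)
    rw [Matrix.det_fin_two] at hd
    push_cast at hd
    rw [h.1, zero_mul, sub_zero] at hd
    obtain ⟨h00, h11⟩ := key _ _ hd
    ext i j
    rw [redTwo_apply]
    fin_cases i <;> fin_cases j <;> simp [h.1, h.2, h00, h11]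

/-- Push an element trivial modulo two into `Γ₀(4N)`. -/
def pullFour (hN : ¬ 2 ∣ N) (γ : Gamma0 N) (h : redTwo N γ = 1) : Gamma0 (4 * N) :=
  ⟨⟨!![(γ : SL(2, ℤ)) 0 0, (γ : SL(2, ℤ)) 0 1 / 2; 2 * (γ : SL(2, ℤ)) 1 0, (γ : SL(2, ℤ)) 1 1], by
    obtain ⟨⟨b, hb⟩, -⟩ := (redTwo_eq_one_iff γ).mp h
    have hd := ((γ : SL(2, ℤ))).2
    rw [Matrix.det_fin_two] at hd
    rw [Matrix.det_fin_two_of, hb, Int.mul_ediv_cancel_left _ two_ne_zero]
    rw [hb] at hd
    linear_combination hd⟩, by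
    obtain ⟨-, ⟨c, hc⟩⟩ := (redTwo_eq_one_iff γ).mp h
    refine Gamma0_mem.mpr ((ZMod.intCast_zmod_eq_zero_iff_dvd _ _).mpr ?_)
    have hNc : (N : ℤ) ∣ c := by
      refine (Int.isCoprime_iff_nat_coprime.mpr ?_ :
        IsCoprime (N : ℤ) 2).dvd_of_dvd_mul_left (hc ▸ Descent3.dvd_lowerLeft γ)
      simpa using ((Nat.prime_two.coprime_iff_not_dvd.mpr hN).symm)
    show ((4 * N : ℕ) : ℤ) ∣ 2 * (γ : SL(2, ℤ)) 1 0
    rw [hc, ← mul_assoc, Nat.cast_mul]
    exact mul_dvd_mul dvd_rfl hNc⟩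

theorem exists_lowerLeft_eq (γ : Gamma0 (4 * N)) :
    ∃ c : ℤ, (γ : SL(2, ℤ)) 1 0 = 4 * (N * c) := by
  obtain ⟨c, hc⟩ := (ZMod.intCast_zmod_eq_zero_iff_dvd _ _).mp (Gamma0_mem.mp γ.2)
  exact ⟨c, by rw [hc]; push_cast; ring⟩

/-- Conjugation by `diag(2, 1)`, as a function. -/
def toBaseFun (γ : Gamma0 (4 * N)) : Gamma0 N :=
  ⟨⟨!![(γ : SL(2, ℤ)) 0 0, 2 * (γ : SL(2, ℤ)) 0 1; (γ : SL(2, ℤ)) 1 0 / 2, (γ : SL(2, ℤ)) 1 1], by
      obtain ⟨c, hc⟩ := exists_lowerLeft_eq γ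
      have hd := ((γ : SL(2, ℤ))).2
      rw [Matrix.det_fin_two, hc] at hd
      rw [Matrix.det_fin_two_of, hc, show (4 : ℤ) * (N * c) = 2 * (2 * (N * c)) by ring,
        Int.mul_ediv_cancel_left _ two_ne_zero]
      linear_combination hd⟩, by
      obtain ⟨c, hc⟩ := exists_lowerLeft_eq γ
      refine Gamma0_mem.mpr ((ZMod.intCast_zmod_eq_zero_iff_dvd _ _).mpr ?_)
      show (N : ℤ) ∣ (γ : SL(2, ℤ)) 1 0 / 2
      rw [hc, show (4 : ℤ) * (N * c) = 2 * (N * (2 * c)) by ring,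
        Int.mul_ediv_cancel_left _ two_ne_zero]
      exact dvd_mul_right _ _⟩

theorem dblMat_mul_toBaseFun (γ : Gamma0 (4 * N)) :
    dblMat * ((γ : SL(2, ℤ)) : M₂) = ((toBaseFun γ : SL(2, ℤ)) : M₂) * dblMat := by
  obtain ⟨c, hc⟩ := exists_lowerLeft_eq γ
  ext i j
  fin_cases i <;> fin_cases j <;>
    simp [dblMat, toBaseFun, Matrix.mul_apply, Fin.sum_univ_two, hc, mul_comm]
  all_goals omega

/-- Conjugation by `diag(2, 1)`. -/
def toBase : Gamma0 (4 * N) →* Gamma0 N :=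
  MonoidHom.mk' toBaseFun fun γ δ => by
    apply Subtype.ext
    apply Subtype.ext
    refine Periods.matrix_mul_right_cancel (C := dblMat) (by simp [det_dblMat]) ?_
    simp only [Subgroup.coe_mul, Matrix.SpecialLinearGroup.coe_mul]
    rw [← dblMat_mul_toBaseFun, mul_assoc, ← dblMat_mul_toBaseFun, Subgroup.coe_mul,
      Matrix.SpecialLinearGroup.coe_mul, ← mul_assoc, dblMat_mul_toBaseFun, mul_assoc]

theorem dblMat_mul (γ : Gamma0 (4 * N)) :
    dblMat * ((γ : SL(2, ℤ)) : M₂) = ((toBase γ : SL(2, ℤ)) : M₂) * dblMat :=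
  dblMat_mul_toBaseFun γ

theorem redTwo_toBase (γ : Gamma0 (4 * N)) : redTwo N (toBase γ) = 1 := by
  obtain ⟨c, hc⟩ := exists_lowerLeft_eq γ
  refine (redTwo_eq_one_iff _).mpr ⟨?_, ?_⟩
  · simp [toBase, toBaseFun]
  · simp [toBase, toBaseFun, hc]
    omega

@[simp] theorem toBase_pullFour (hN : ¬ 2 ∣ N) (γ : Gamma0 N) (h : redTwo N γ = 1) :
    toBase (pullFour hN γ h) = γ := by
  obtain ⟨⟨b, hb⟩, -⟩ := (redTwo_eq_one_iff γ).mp h
  apply Subtype.ext
  ext i j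
  fin_cases i <;> fin_cases j <;>
    simp [toBase, toBaseFun, pullFour, hb]

theorem toBase_injective : Function.Injective (toBase (N := N)) := by
  intro γ δ h
  apply Subtype.ext
  apply Subtype.ext
  have e := dblMat_mul γ
  rw [h, ← dblMat_mul δ] at e
  have e' := congrArg (dblMat' * ·) e
  simp only [← mul_assoc, dblMat'_mul, Matrix.smul_mul, one_mul] at e'
  exact smul_right_injective _ two_ne_zero e'

@[simp] theorem pullFour_toBase (hN : ¬ 2 ∣ N) (γ : Gamma0 (4 * N)) :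
    pullFour hN (toBase γ) (redTwo_toBase γ) = γ :=
  toBase_injective (toBase_pullFour hN _ _)

theorem dblMat'_mul_toBase (γ : Gamma0 (4 * N)) :
    dblMat' * ((toBase γ : SL(2, ℤ)) : M₂) = ((γ : SL(2, ℤ)) : M₂) * dblMat' := by
  refine Periods.matrix_mul_right_cancel (C := dblMat) (by simp [det_dblMat]) ?_
  rw [mul_assoc, ← dblMat_mul, ← mul_assoc, dblMat'_mul, mul_assoc, dblMat'_mul, Matrix.smul_mul,
    one_mul, Matrix.mul_smul, mul_one]

variable (hN : ¬ 2 ∣ N)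

/-- Conjugation by an element of `Γ₀(N)`. -/
def conjBase (g : Gamma0 N) : Gamma0 (4 * N) →* Gamma0 (4 * N) :=
  MonoidHom.mk' (fun γ => pullFour hN (g * toBase γ * g⁻¹) (by simp [redTwo_toBase]))
    fun γ δ => toBase_injective (by simp [mul_assoc])

@[simp] theorem toBase_conjBase (g : Gamma0 N) (γ : Gamma0 (4 * N)) :
    toBase (conjBase hN g γ) = g * toBase γ * g⁻¹ := by simp [conjBase]

variable {K : Type*} [Field K]

/-- The action of `Γ₀(N)` on characters of `Γ₀(4N)`. -/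
def conjChar (g : Gamma0 N) (ψ : Additive (Gamma0 (4 * N)) →+ K) :
    Additive (Gamma0 (4 * N)) →+ K :=
  ψ.comp (MonoidHom.toAdditive (conjBase hN g))

theorem conjChar_apply (g : Gamma0 N) (ψ : Additive (Gamma0 (4 * N)) →+ K)
    (γ : Gamma0 (4 * N)) :
    conjChar hN g ψ (Additive.ofMul γ) = ψ (Additive.ofMul (conjBase hN g γ)) := rfl

theorem conjChar_conjChar (g h : Gamma0 N) (ψ : Additive (Gamma0 (4 * N)) →+ K) :
    conjChar hN g (conjChar hN h ψ) = conjChar hN (h * g) ψ :=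
  AddMonoidHom.ext fun x => by
    show ψ (Additive.ofMul (conjBase hN h (conjBase hN g (Additive.toMul x)))) =
      ψ (Additive.ofMul (conjBase hN (h * g) (Additive.toMul x)))
    congr 2
    exact toBase_injective (by simp [mul_assoc])

/-- The action only depends on the reduction modulo two. -/
theorem conjChar_congr {g h : Gamma0 N} (e : redTwo N g = redTwo N h)
    (ψ : Additive (Gamma0 (4 * N)) →+ K) : conjChar hN g ψ = conjChar hN h ψ := by
  set w := pullFour hN (g * h⁻¹) (by simp [e])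
  refine AddMonoidHom.ext fun x => ?_
  obtain ⟨γ, rfl⟩ : ∃ γ, Additive.ofMul γ = x := ⟨Additive.toMul x, rfl⟩
  have : conjBase hN g γ = w * conjBase hN h γ * w⁻¹ :=
    toBase_injective (by simp [w, mul_assoc])
  rw [conjChar_apply, conjChar_apply, this, ofMul_mul, ofMul_mul, ofMul_inv, map_add, map_add,
    map_neg]
  abel

theorem conjChar_of_redTwo {g : Gamma0 N} (e : redTwo N g = 1)
    (ψ : Additive (Gamma0 (4 * N)) →+ K) : conjChar hN g ψ = ψ := by
  rw [conjChar_congr hN (e.trans (map_one (redTwo N)).symm)]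
  refine AddMonoidHom.ext fun x => ?_
  show ψ (Additive.ofMul (conjBase hN 1 (Additive.toMul x))) = ψ x
  rw [show conjBase hN 1 (Additive.toMul x) = Additive.toMul x from toBase_injective (by simp),
    ofMul_toMul]

section Hecke

variable {ℓ : ℕ} (hℓ : ℓ.Prime)

/-- The representatives of `T_ℓ` on `Γ(2) ∩ Γ₀(N)`, congruent to the identity modulo two. -/
def baseRep (ℓ : ℕ) : Option (ZMod ℓ) → M₂
  | none => Periods.diagRep ℓ
  | some x => !![1, 2 * (x.val : ℤ); 0, (ℓ : ℤ)]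

theorem dblMat_mul_tRep (i : Option (ZMod ℓ)) :
    dblMat * Periods.tRep ℓ i = baseRep ℓ i * dblMat := by
  cases i <;> ext a b <;> fin_cases a <;> fin_cases b <;>
    simp [dblMat, baseRep, Periods.tRep, Periods.diagRep, Periods.upperRep, Matrix.mul_apply,
      Fin.sum_univ_two, mul_comm]

theorem dblMat'_mul_baseRep (i : Option (ZMod ℓ)) :
    dblMat' * baseRep ℓ i = Periods.tRep ℓ i * dblMat' := by
  cases i <;> ext a b <;> fin_cases a <;> fin_cases b <;>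
    simp [dblMat', baseRep, Periods.tRep, Periods.diagRep, Periods.upperRep, Matrix.mul_apply,
      Fin.sum_univ_two, mul_comm]

theorem det_baseRep (i : Option (ZMod ℓ)) : (baseRep ℓ i).det = ℓ := by
  cases i <;> simp [baseRep, Periods.diagRep, Matrix.det_fin_two_of]

variable (hℓN : ¬ ℓ ∣ 4 * N)

include hℓ hℓN in
theorem intCast_baseRep (i : Option (ZMod ℓ)) :
    (baseRep ℓ i).map (Int.castRingHom (ZMod 2)) = 1 := by
  have hodd : ¬ 2 ∣ ℓ := fun h => hℓN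
    ((Nat.prime_dvd_prime_iff_eq Nat.prime_two hℓ).mp h ▸ dvd_mul_of_dvd_left (by norm_num) N)
  have h1 : (ℓ : ZMod 2) = 1 := by
    rw [ZMod.natCast_eq_one_iff_odd]
    exact Nat.odd_iff.mpr (Nat.two_dvd_ne_zero.mp hodd)
  ext a b
  cases i <;> fin_cases a <;> fin_cases b <;>
    simp [baseRep, Periods.diagRep, h1, show (2 : ZMod 2) = 0 from rfl]

include hN hℓ hℓN in
/-- `Γ₀(N)` permutes the representatives up to the kernel of reduction modulo two. -/
theorem exists_conj_baseRep (g : Gamma0 N) :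
    ∃ (τ : Equiv.Perm (Option (ZMod ℓ))) (u : Option (ZMod ℓ) → Gamma0 (4 * N)), ∀ i,
      ((g : SL(2, ℤ)) : M₂) * baseRep ℓ i =
        ((toBase (u i) : SL(2, ℤ)) : M₂) * baseRep ℓ (τ i) * ((g : SL(2, ℤ)) : M₂) := by
  have : NeZero ℓ := ⟨hℓ.ne_zero⟩
  set G := ((g : SL(2, ℤ)) : M₂)
  set G' := (((g⁻¹ : Gamma0 N) : SL(2, ℤ)) : M₂)
  have hGG' : G * G' = 1 := by
    rw [← Matrix.SpecialLinearGroup.coe_mul, ← Subgroup.coe_mul, mul_inv_cancel]; rfl
  have hG'G : G' * G = 1 := by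
    rw [← Matrix.SpecialLinearGroup.coe_mul, ← Subgroup.coe_mul, inv_mul_cancel]; rfl
  have hex : ∀ i, ∃ (j : Option (ZMod ℓ)) (u : Gamma0 (4 * N)),
      G * baseRep ℓ i = ((toBase u : SL(2, ℤ)) : M₂) * baseRep ℓ j * G := by
    intro i
    set M := G * baseRep ℓ i * G'
    have hmod : M.map (Int.castRingHom (ZMod 2)) = 1 := by
      simp only [M, Matrix.map_mul, intCast_baseRep hℓ hℓN, mul_one]
      rw [← Matrix.map_mul, hGG', Matrix.map_one _ (map_zero _) (map_one _)]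
    obtain ⟨b, hb⟩ : (2 : ℤ) ∣ M 0 1 := by
      rw [← even_iff_two_dvd, ← ZMod.intCast_eq_zero_iff_even]
      simpa using congrFun (congrFun hmod 0) 1
    obtain ⟨c, hc⟩ : (N : ℤ) ∣ M 1 0 := by
      rw [← ZMod.intCast_zmod_eq_zero_iff_dvd]
      have h1 := Gamma0_mem.mp g.2
      have h2 := Gamma0_mem.mp (g⁻¹).2
      have h3 : baseRep ℓ i 1 0 = 0 := by cases i <;> simp [baseRep, Periods.diagRep]
      simp only [M, G, G', Matrix.mul_apply, Fin.sum_univ_two, Int.cast_add, Int.cast_mul, h1, h2,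
        h3, Int.cast_zero]
      ring
    obtain ⟨c', hc'⟩ : (2 : ℤ) ∣ M 1 0 := by
      rw [← even_iff_two_dvd, ← ZMod.intCast_eq_zero_iff_even]
      simpa using congrFun (congrFun hmod 1) 0
    have h2N : ((4 * N : ℕ) : ℤ) ∣ 2 * M 1 0 := by
      have : ((2 * N : ℕ) : ℤ) ∣ M 1 0 := by
        push_cast
        refine IsCoprime.mul_dvd ?_ ⟨c', hc'⟩ ⟨c, hc⟩
        refine (Int.isCoprime_iff_nat_coprime.mpr ?_ : IsCoprime (2 : ℤ) (N : ℤ))
        simpa using Nat.prime_two.coprime_iff_not_dvd.mpr hN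
      push_cast at this ⊢
      rw [show (4 : ℤ) * N = 2 * (2 * N) by ring]
      exact mul_dvd_mul_left _ this
    have hdet : Matrix.det !![M 0 0, b; 2 * M 1 0, M 1 1] = (ℓ : ℤ) := by
      have : M.det = ℓ := by
        simp only [M, G, G', Matrix.det_mul, det_baseRep, Matrix.SpecialLinearGroup.det_coe,
          one_mul, mul_one]
      rw [Matrix.det_fin_two, hb] at this
      rw [Matrix.det_fin_two_of]
      linear_combination this
    obtain ⟨u, j, hu⟩ := exists_eq_mul_tRep hℓ hℓN hdet h2N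
    have h := congrArg (dblMat * ·) hu
    simp only [← mul_assoc, dblMat_mul] at h
    rw [mul_assoc _ dblMat, dblMat_mul_tRep, ← mul_assoc,
      show dblMat * !![M 0 0, b; 2 * M 1 0, M 1 1] = M * dblMat by
        ext a a'
        fin_cases a <;> fin_cases a' <;>
          simp [dblMat, Matrix.mul_apply, Fin.sum_univ_two, hb, mul_comm]] at h
    refine ⟨j, u, ?_⟩
    rw [← Periods.matrix_mul_right_cancel (by simp [det_dblMat]) h]
    simp only [M, mul_assoc, hG'G, mul_one]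
  choose τ u hu using hex
  have hinj : Function.Injective τ := by
    intro i k e
    set v := pullFour hN (g⁻¹ * (toBase (u i) * (toBase (u k))⁻¹) * g) (by simp [redTwo_toBase])
    have hv : baseRep ℓ i = ((toBase v : SL(2, ℤ)) : M₂) * baseRep ℓ k := by
      have hk := congrArg (((((toBase (u i)) * (toBase (u k))⁻¹ : Gamma0 N) : SL(2, ℤ)) : M₂) * ·)
        (hu k)
      simp only [← mul_assoc, ← Matrix.SpecialLinearGroup.coe_mul, ← Subgroup.coe_mul,
        inv_mul_cancel_right, ← e, ← hu i] at hk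
      have := congrArg (G' * ·) hk
      simp only [← mul_assoc, hG'G, one_mul] at this
      rw [← this]
      simp [v, G, G', mul_assoc]
    have h := congrArg (dblMat' * ·) hv
    simp only [← mul_assoc, dblMat'_mul_toBase, dblMat'_mul_baseRep] at h
    rw [mul_assoc, dblMat'_mul_baseRep, ← mul_assoc] at h
    exact (Periods.tCorr (4 * N) hℓ hℓN).rep_sep v i k
      (Periods.matrix_mul_right_cancel (by simp [dblMat', Matrix.det_fin_two_of]) h)
  exact ⟨Equiv.ofBijective τ (Finite.injective_iff_bijective.mp hinj), u, hu⟩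

theorem heckeHomT_conjChar (g : Gamma0 N) (ψ : Additive (Gamma0 (4 * N)) →+ K) :
    Periods.heckeHomT K (4 * N) hℓ hℓN (conjChar hN g ψ) =
      conjChar hN g (Periods.heckeHomT K (4 * N) hℓ hℓN ψ) := by
  have : NeZero ℓ := ⟨hℓ.ne_zero⟩
  obtain ⟨τ, u, hu⟩ := exists_conj_baseRep hN hℓ hℓN g
  refine transfer_comp_of_intertwine (Periods.tCorr (4 * N) hℓ hℓN)
    (Periods.tCorr (4 * N) hℓ hℓN) (conjBase hN g)
    (C := dblMat' * ((g : SL(2, ℤ)) : M₂) * dblMat) ?_ ?_ τ u ?_ ψ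
  · rw [Matrix.det_mul, Matrix.det_mul, Matrix.SpecialLinearGroup.det_coe, det_dblMat]
    simp [dblMat', Matrix.det_fin_two_of]
  · intro γ
    rw [mul_assoc, dblMat_mul, ← mul_assoc, mul_assoc dblMat', ← Matrix.SpecialLinearGroup.coe_mul,
      ← Subgroup.coe_mul, show g * toBase γ = toBase (conjBase hN g γ) * g by simp,
      Subgroup.coe_mul, Matrix.SpecialLinearGroup.coe_mul, ← mul_assoc, dblMat'_mul_toBase]
    simp only [mul_assoc]
  · intro i
    simp only [Periods.tCorr_rep]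
    rw [mul_assoc, dblMat_mul_tRep, ← mul_assoc, mul_assoc dblMat', hu, ← mul_assoc, ← mul_assoc,
      dblMat'_mul_toBase, mul_assoc _ dblMat', dblMat'_mul_baseRep]
    simp only [mul_assoc]

end Hecke

/-- Conjugation by `diag(2, 1)` lands in `Γ₀(2N)`. -/
def toTwo : Gamma0 (4 * N) →* Gamma0 (2 * N) :=
  MonoidHom.mk' (fun γ => ⟨(toBase γ : SL(2, ℤ)), by
      obtain ⟨c, hc⟩ := exists_lowerLeft_eq γ
      refine Gamma0_mem.mpr ((ZMod.intCast_zmod_eq_zero_iff_dvd _ _).mpr ⟨c, ?_⟩)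
      simp [toBase, toBaseFun, hc, show ∀ m : ℤ, 4 * m / 2 = 2 * m from fun m => by omega, mul_assoc]⟩)
    fun γ δ => by apply Subtype.ext; simp

@[simp] theorem coe_toTwo (γ : Gamma0 (4 * N)) :
    ((toTwo γ : Gamma0 (2 * N)) : SL(2, ℤ)) = toBase γ := rfl

/-- Restriction from `Γ₀(2N)`. -/
def resTwo : (Additive (Gamma0 (2 * N)) →+ K) →ₗ[K] (Additive (Gamma0 (4 * N)) →+ K) where
  toFun χ := χ.comp (MonoidHom.toAdditive toTwo)
  map_add' _ _ := rfl
  map_smul' _ _ := rfl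

theorem resTwo_apply (χ : Additive (Gamma0 (2 * N)) →+ K) (γ : Gamma0 (4 * N)) :
    resTwo χ (Additive.ofMul γ) = χ (Additive.ofMul (toTwo γ)) := rfl

theorem heckeHomT_resTwo {ℓ : ℕ} (hℓ : ℓ.Prime) (hℓN : ¬ ℓ ∣ 4 * N) (hℓN2 : ¬ ℓ ∣ 2 * N)
    (χ : Additive (Gamma0 (2 * N)) →+ K) :
    Periods.heckeHomT K (4 * N) hℓ hℓN (resTwo χ) =
      resTwo (Periods.heckeHomT K (2 * N) hℓ hℓN2 χ) := by
  have : Fact ℓ.Prime := ⟨hℓ⟩
  have h2 : (2 : ZMod ℓ) ≠ 0 := by
    rw [show (2 : ZMod ℓ) = ((2 : ℕ) : ZMod ℓ) by norm_num, Ne, ZMod.natCast_eq_zero_iff]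
    exact fun h => hℓN2 (h.trans (dvd_mul_right 2 N))
  have hdiv : ∀ x : ZMod ℓ, (ℓ : ℤ) ∣ 2 * (x.val : ℤ) - ((2 * x).val : ℤ) := fun x => by
    rw [← ZMod.intCast_zmod_eq_zero_iff_dvd]
    simp
  choose e he using hdiv
  refine transfer_comp_of_intertwine (Periods.tCorr (4 * N) hℓ hℓN)
    (Periods.tCorr (2 * N) hℓ hℓN2) toTwo (C := dblMat) (by simp [det_dblMat])
    (fun γ => by rw [coe_toTwo]; exact dblMat_mul γ)
    (Equiv.optionCongr (Equiv.mulLeft₀ 2 h2))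
    (fun i => i.elim 1 fun x => Periods.shiftGamma0 (2 * N) (e x)) ?_ χ
  intro i
  simp only [Periods.tCorr_rep]
  rw [dblMat_mul_tRep]
  congr 1
  cases i with
  | none => simp [baseRep, Periods.tRep]
  | some x =>
    ext a b
    fin_cases a <;> fin_cases b <;>
      simp [baseRep, Periods.tRep, Periods.upperRep, Periods.shiftGamma0, Matrix.mul_apply,
        Fin.sum_univ_two, -ZMod.natCast_val]
    linear_combination he x

end

end FermatAgent.RTLift.Sq.Two
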