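import Fermat.Agent.RTLift.Sq.Two.Lift
import Fermat.Agent.RTLift.Sq.Two.Maps

/-!
# Characters fixed by the rotation of order three are coboundaries

Let `ψ` be a mod 3 character of `Γ₀(4N)` fixed by the conjugation `C` by an element of order three
modulo two, and an eigenvector of some `T_ℓ`, `ℓ ≡ 1 (mod 3)`, with eigenvalue `≠ 2`. Then `ψ`
kills the cube of the rotation, so it extends to the index two subgroup of `Γ₀(N)`, and the
Heisenberg lift gives `y` with `C y = y + ψ`.
-/

set_option autoImplicit false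

open CongruenceSubgroup
open scoped MatrixGroups

namespace FermatAgent.RTLift.Sq.Two

local notation "M₂" => Matrix (Fin 2) (Fin 2) ℤ

noncomputable section

/-- An element of order three modulo two. -/
def rot (N : ℕ) : Gamma0 N :=
  ⟨⟨!![1, 1; (N : ℤ), 1 + N], by simp [Matrix.det_fin_two_of]⟩, Gamma0_mem.mpr (by simp)⟩

/-- Its reduction. -/
def rotTwo : SL(2, ZMod 2) := ⟨!![1, 1; 1, 0], by decide⟩

/-- The cyclic subgroup of order three of `SL(2, 𝔽₂)`. -/
def rotGroup : Subgroup SL(2, ZMod 2) where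
  carrier := {x | x = 1 ∨ x = rotTwo ∨ x = rotTwo * rotTwo}
  mul_mem' := by
    rintro a b (rfl | rfl | rfl) (rfl | rfl | rfl) <;> simp only [Set.mem_ofPred_eq] <;> decide
  one_mem' := Or.inl rfl
  inv_mem' := by
    rintro a (rfl | rfl | rfl) <;> simp only [Set.mem_ofPred_eq] <;> decide

/-- The class in `ℤ/3`. -/
def rotClass (x : SL(2, ZMod 2)) : ZMod 3 := if x = 1 then 0 else if x = rotTwo then 1 else 2

theorem rotClass_mul {x y : SL(2, ZMod 2)} (hx : x ∈ rotGroup) (hy : y ∈ rotGroup) :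
    rotClass (x * y) = rotClass x + rotClass y := by
  rcases hx with rfl | rfl | rfl <;> rcases hy with rfl | rfl | rfl <;> decide

theorem rotTwo_pow_rotClass {x : SL(2, ZMod 2)} (hx : x ∈ rotGroup) :
    rotTwo ^ (rotClass x).val = x := by
  rcases hx with rfl | rfl | rfl <;> decide

variable {N : ℕ}

theorem redTwo_rot (hN : ¬ 2 ∣ N) : redTwo N (rot N) = rotTwo := by
  have h1 : (N : ZMod 2) = 1 :=
    ZMod.natCast_eq_one_iff_odd.mpr (Nat.odd_iff.mpr (Nat.two_dvd_ne_zero.mp hN))
  ext i j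
  rw [redTwo_apply]
  fin_cases i <;> fin_cases j <;> simp [rot, rotTwo, h1]
  all_goals decide

theorem redTwo_rot_cube (hN : ¬ 2 ∣ N) : redTwo N (rot N ^ 3) = 1 := by
  rw [map_pow, redTwo_rot hN]
  decide

/-- The index two subgroup of `Γ₀(N)` of elements of rotation type modulo two. -/
def rotSubgroup (N : ℕ) : Subgroup SL(2, ℤ) :=
  Gamma0 N ⊓ rotGroup.comap (Matrix.SpecialLinearGroup.map (Int.castRingHom (ZMod 2)))

instance [NeZero N] : (rotSubgroup N).FiniteIndex := by
  have : (rotGroup.comap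
      (Matrix.SpecialLinearGroup.map (n := Fin 2) (Int.castRingHom (ZMod 2)))).FiniteIndex :=
    Subgroup.finiteIndex_of_le (H := MonoidHom.ker
      (Matrix.SpecialLinearGroup.map (n := Fin 2) (Int.castRingHom (ZMod 2))))
      fun x hx => Subgroup.mem_comap.mpr (MonoidHom.mem_ker.mp hx ▸ rotGroup.one_mem)
  exact inferInstanceAs (Subgroup.FiniteIndex (_ ⊓ _))

theorem neg_one_mem_rotSubgroup : (-1 : SL(2, ℤ)) ∈ rotSubgroup N := by
  refine ⟨Gamma0_mem.mpr (by simp), Or.inl ?_⟩
  ext i j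
  fin_cases i <;> fin_cases j <;> simp

/-- The inclusion into `Γ₀(N)`. -/
def rotIncl : rotSubgroup N →* Gamma0 N := Subgroup.inclusion inf_le_left

theorem redTwo_rotIncl_mem (γ : rotSubgroup N) : redTwo N (rotIncl γ) ∈ rotGroup := γ.2.2

variable (hN : ¬ 2 ∣ N) {K : Type*} [Field K] [CharP K 3]
  {ψ : Additive (Gamma0 (4 * N)) →+ K}

theorem eq_of_dblMat_mul {A B : M₂} (h : dblMat * A = dblMat * B) : A = B := by
  have e := congrArg (dblMat' * ·) h
  simp only [← mul_assoc, dblMat'_mul, Matrix.smul_mul, one_mul] at e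
  exact smul_right_injective _ two_ne_zero e

omit [CharP K 3] in
include hN in
theorem conjChar_rot_pow (hfix : conjChar hN (rot N) ψ = ψ) (k : ℕ) :
    conjChar hN (rot N ^ k) ψ = ψ := by
  induction k with
  | zero => exact conjChar_of_redTwo hN (by simp) ψ
  | succ k ih => rw [pow_succ', ← conjChar_conjChar, hfix, ih]

omit [CharP K 3] in
theorem apply_conjBase {g : Gamma0 N} (h : conjChar hN g ψ = ψ) (w : Gamma0 (4 * N)) :
    ψ (Additive.ofMul (conjBase hN g w)) = ψ (Additive.ofMul w) := by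
  rw [← conjChar_apply, h]

/-- The obstruction vanishes. -/
theorem apply_rot_cube (hfix : conjChar hN (rot N) ψ = ψ) {ℓ : ℕ} (hℓ : ℓ.Prime)
    (hℓN : ¬ ℓ ∣ 4 * N) {a : K} (he : Periods.heckeHomT K (4 * N) hℓ hℓN ψ = a • ψ)
    (hℓ1 : (ℓ : K) = 1) (ha : a ≠ 2) :
    ψ (Additive.ofMul (pullFour hN (rot N ^ 3) (redTwo_rot_cube hN))) = 0 := by
  have : NeZero ℓ := ⟨hℓ.ne_zero⟩
  set γ := pullFour hN (rot N ^ 3) (redTwo_rot_cube hN) with hγ
  set D := Periods.tCorr (4 * N) hℓ hℓN
  obtain ⟨τ, u, hu⟩ := exists_conj_baseRep hN hℓ hℓN (rot N)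
  set n : Option (ZMod ℓ) → Gamma0 N := fun i => (toBase (u i))⁻¹ * rot N
  have hn : ∀ i, baseRep ℓ (τ i) * ((rot N : SL(2, ℤ)) : M₂) =
      ((n i : SL(2, ℤ)) : M₂) * baseRep ℓ i := fun i => by
    simp only [n, Subgroup.coe_mul, Matrix.SpecialLinearGroup.coe_mul]
    rw [mul_assoc, hu i, ← mul_assoc, ← mul_assoc, ← Matrix.SpecialLinearGroup.coe_mul,
      ← Subgroup.coe_mul, inv_mul_cancel, OneMemClass.coe_one, Matrix.SpecialLinearGroup.coe_one,
      one_mul]
  set w : Option (ZMod ℓ) → Gamma0 (4 * N) := fun i =>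
    (u (τ (τ i)))⁻¹ * conjBase hN (rot N) (u (τ i))⁻¹ *
      conjBase hN (rot N ^ 2) (u i)⁻¹ * γ
  have hmove : ∀ i, D.move γ (τ (τ (τ i))) = w i := by
    intro i
    refine (D.move_unique (j := i) (eq_of_dblMat_mul ?_)).2
    simp only [D, Periods.tCorr_rep]
    rw [← mul_assoc, dblMat_mul_tRep, mul_assoc, dblMat_mul, hγ, toBase_pullFour,
      ← mul_assoc (dblMat : M₂), dblMat_mul, mul_assoc, dblMat_mul_tRep, ← mul_assoc, ← mul_assoc]
    congr 1
    have hw : toBase (w i) = n (τ (τ i)) * n (τ i) * n i := by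
      simp [w, n, hγ, pow_succ, mul_assoc]
    rw [hw, pow_three']
    simp only [Subgroup.coe_mul, Matrix.SpecialLinearGroup.coe_mul]
    rw [← mul_assoc, ← mul_assoc, hn, mul_assoc _ (baseRep ℓ (τ (τ i))), hn, ← mul_assoc,
      mul_assoc _ (baseRep ℓ (τ i)), hn, ← mul_assoc]
  have hval : ∀ i, ψ (Additive.ofMul (D.move γ (τ (τ (τ i))))) = ψ (Additive.ofMul γ) -
      (ψ (Additive.ofMul (u (τ (τ i)))) + ψ (Additive.ofMul (u (τ i))) +
        ψ (Additive.ofMul (u i))) := fun i => by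
    rw [hmove]
    simp only [w, map_inv, ofMul_mul, ofMul_inv, map_add, map_neg, apply_conjBase hN hfix,
      apply_conjBase hN (conjChar_rot_pow hN hfix 2)]
    ring
  have h := DFunLike.congr_fun he (Additive.ofMul γ)
  rw [AddMonoidHom.smul_apply, smul_eq_mul] at h
  change ∑ i, ψ (Additive.ofMul (D.move γ i)) = _ at h
  rw [← Equiv.sum_comp (τ.trans (τ.trans τ)) fun i => ψ (Additive.ofMul (D.move γ i))] at h
  simp only [Equiv.trans_apply, hval, Finset.sum_sub_distrib, Finset.sum_add_distrib] at h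
  rw [Equiv.sum_comp τ fun i => ψ (Additive.ofMul (u i)),
    Equiv.sum_comp τ fun i => ψ (Additive.ofMul (u (τ i))),
    Equiv.sum_comp τ fun i => ψ (Additive.ofMul (u i)), Finset.sum_const, Finset.card_univ,
    Fintype.card_option, ZMod.card, nsmul_eq_mul, Nat.cast_add, hℓ1, Nat.cast_one] at h
  have h3 : (3 : K) = 0 := by
    rw [show (3 : K) = ((3 : ℕ) : K) by norm_num, CharP.cast_eq_zero]
  have : (a - 2) * ψ (Additive.ofMul γ) = 0 := by
    linear_combination -h - (∑ i, ψ (Additive.ofMul (u i))) * h3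
  exact (mul_eq_zero.mp this).resolve_left (sub_ne_zero.mpr ha)

/-- The exponent of the rotation in `γ`. -/
def rotExp (γ : rotSubgroup N) : ℕ := (rotClass (redTwo N (rotIncl γ))).val

include hN in
theorem redTwo_mul_rot_inv (γ : rotSubgroup N) :
    redTwo N (rotIncl γ * (rot N ^ rotExp γ)⁻¹) = 1 := by
  rw [map_mul, map_inv, map_pow, redTwo_rot hN, rotExp,
    rotTwo_pow_rotClass (redTwo_rotIncl_mem γ), mul_inv_cancel]

/-- The class of the rotation as a character. -/
def rotChar : Additive (rotSubgroup N) →+ K :=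
  AddMonoidHom.mk' (fun x => ZMod.castHom dvd_rfl K (rotClass (redTwo N (rotIncl (Additive.toMul x)))))
    fun x y => by
      rw [toMul_add, map_mul, map_mul, rotClass_mul (redTwo_rotIncl_mem _) (redTwo_rotIncl_mem _),
        map_add]

omit [CharP K 3] in
/-- A fixed character killing the cube of the rotation extends to `rotSubgroup N`. -/
theorem exists_rot_extension (hfix : conjChar hN (rot N) ψ = ψ)
    (hc : ψ (Additive.ofMul (pullFour hN (rot N ^ 3) (redTwo_rot_cube hN))) = 0) :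
    ∃ χ : Additive (rotSubgroup N) →+ K, ∀ (γ : rotSubgroup N) (d : Gamma0 (4 * N)),
      rotIncl γ = toBase d → χ (Additive.ofMul γ) = ψ (Additive.ofMul d) := by
  let ext : rotSubgroup N → K := fun γ =>
    ψ (Additive.ofMul (pullFour hN _ (redTwo_mul_rot_inv hN γ)))
  have hadd : ∀ γ δ, ext (γ * δ) = ext γ + ext δ := by
    intro γ δ
    set i := rotExp γ
    set j := rotExp δ
    set k := rotExp (γ * δ)
    obtain ⟨e, he⟩ : ∃ e, i + j = 3 * e + k := by
      refine ⟨(i + j) / 3, ?_⟩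
      have hk : k = (i + j) % 3 := by
        simp only [k, i, j, rotExp]
        rw [map_mul, map_mul, rotClass_mul (redTwo_rotIncl_mem _) (redTwo_rotIncl_mem _),
          ZMod.val_add]
      omega
    have hsplit : pullFour hN _ (redTwo_mul_rot_inv hN (γ * δ)) =
        pullFour hN _ (redTwo_mul_rot_inv hN γ) *
          conjBase hN (rot N ^ i) (pullFour hN _ (redTwo_mul_rot_inv hN δ)) *
            pullFour hN (rot N ^ 3) (redTwo_rot_cube hN) ^ e := by
      apply toBase_injective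
      have hp : rot N ^ i * rot N ^ j = rot N ^ (3 * e) * rot N ^ k := by rw [← pow_add, ← pow_add, he]
      simp only [map_mul, map_pow, toBase_pullFour, toBase_conjBase, ← pow_mul,
        show rot N ^ (3 * e) = rot N ^ i * rot N ^ j * (rot N ^ k)⁻¹ by
          rw [hp, mul_inv_cancel_right]]
      simp only [mul_assoc, inv_mul_cancel_left, i, j, k]
    simp only [ext]
    rw [hsplit, ofMul_mul, ofMul_mul, ofMul_pow, map_add, map_add, map_nsmul, hc, nsmul_zero,
      add_zero, apply_conjBase hN (conjChar_rot_pow hN hfix i)]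
  refine ⟨AddMonoidHom.mk' (fun x => ext (Additive.toMul x))
    fun x y => hadd (Additive.toMul x) (Additive.toMul y), fun γ d hd => ?_⟩
  show ψ _ = ψ _
  congr 2
  apply toBase_injective
  have : rotExp γ = 0 := by simp [rotExp, hd, redTwo_toBase, rotClass]
  simp [hd, this]

/-- A fixed non-Eisenstein character is in the image of `C - 1`. -/
theorem exists_rot_preimage [NeZero N] (hfix : conjChar hN (rot N) ψ = ψ) {ℓ : ℕ} (hℓ : ℓ.Prime)
    (hℓN : ¬ ℓ ∣ 4 * N) {a : K} (he : Periods.heckeHomT K (4 * N) hℓ hℓN ψ = a • ψ)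
    (hℓ1 : (ℓ : K) = 1) (ha : a ≠ 2) :
    ∃ y : Additive (Gamma0 (4 * N)) →+ K, conjChar hN (rot N) y = y + ψ := by
  obtain ⟨χ, hχ⟩ := exists_rot_extension hN hfix (apply_rot_cube hN hfix hℓ hℓN he hℓ1 ha)
  obtain ⟨Y, hY⟩ := exists_heisenberg_lift (rotChar (N := N) (K := K)) χ neg_one_mem_rotSubgroup
  set θ := rotChar (N := N) (K := K)
  let j : Gamma0 (4 * N) →* rotSubgroup N :=
    MonoidHom.mk' (fun d => ⟨(toBase d : SL(2, ℤ)), (toBase d).2, Or.inl (redTwo_toBase d)⟩)
      fun d d' => by apply Subtype.ext; simp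
  have hj : ∀ d, rotIncl (j d) = toBase d := fun d => rfl
  have hθj : ∀ d, θ (Additive.ofMul (j d)) = 0 := fun d => by
    simp [θ, rotChar, hj, redTwo_toBase, rotClass]
  let r : rotSubgroup N := ⟨(rot N : SL(2, ℤ)), (rot N).2, Or.inr (Or.inl (redTwo_rot hN))⟩
  have hθr : θ (Additive.ofMul r) = 1 := by
    have h : redTwo N (rotIncl r) = rotTwo := redTwo_rot hN
    simp only [θ, rotChar, AddMonoidHom.mk'_apply, toMul_ofMul, h]
    rw [show rotClass rotTwo = 1 by decide, map_one]
  have hY1 : Y 1 = 0 := by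
    have := hY 1 1
    simpa using this
  refine ⟨AddMonoidHom.mk' (fun x => Y (j (Additive.toMul x))) fun x y => by
    rw [toMul_add, map_mul, hY, hθj, zero_mul, add_zero], AddMonoidHom.ext fun x => ?_⟩
  obtain ⟨d, rfl⟩ : ∃ d, Additive.ofMul d = x := ⟨Additive.toMul x, rfl⟩
  have hconj : j (conjBase hN (rot N) d) = r * j d * r⁻¹ := by
    apply Subtype.ext
    simp [j, r]
  show Y (j (conjBase hN (rot N) d)) = Y (j d) + ψ (Additive.ofMul d)
  rw [hconj, hY, hY, ofMul_mul, map_add, hθj, add_zero, hθr, one_mul, hχ _ d (hj d)]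
  have h := hY r r⁻¹
  rw [mul_inv_cancel, hY1, hθr, one_mul] at h
  linear_combination -h

end

end FermatAgent.RTLift.Sq.Two
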