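import Fermat.Agent.RTLift.Sq.Two.Maps

/-!
# The transfer from `Γ₀(4N)` to `Γ₀(2N)`

After conjugation by `diag(2, 1)` this is the transfer along an index two inclusion with coset
representatives `1, T`. Its restriction is `v + v ∘ (conjugation by T)`.
-/

set_option autoImplicit false

open CongruenceSubgroup
open scoped MatrixGroups

namespace FermatAgent.RTLift.Sq.Two

noncomputable section

variable {N : ℕ}

/-- The translation `T`. -/
def shiftOne (N : ℕ) : Gamma0 N := Periods.shiftGamma0 N 1

/-- Its reduction. -/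
def shiftTwo : SL(2, ZMod 2) := ⟨!![1, 1; 0, 1], by decide⟩

theorem redTwo_shiftOne : redTwo N (shiftOne N) = shiftTwo := by
  ext i j
  rw [redTwo_apply]
  fin_cases i <;> fin_cases j <;> simp [shiftOne, Periods.shiftGamma0, shiftTwo]

/-- The inclusion `Γ₀(2N) → Γ₀(N)`. -/
def twoIncl (N : ℕ) : Gamma0 (2 * N) →* Gamma0 N :=
  Subgroup.inclusion fun γ hγ => Gamma0_mem.mpr (by
    simpa using congrArg (ZMod.castHom (Dvd.intro_left 2 rfl) (ZMod N)) (Gamma0_mem.mp hγ))

theorem redTwo_twoIncl (γ : Gamma0 (2 * N)) :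
    redTwo N (twoIncl N γ) = 1 ∨ redTwo N (twoIncl N γ) = shiftTwo := by
  set x := redTwo N (twoIncl N γ) with hx
  have h10 : x 1 0 = 0 := by
    rw [hx, redTwo_apply]
    show (((γ : SL(2, ℤ)) 1 0 : ℤ) : ZMod 2) = 0
    obtain ⟨c, hc⟩ := (ZMod.intCast_zmod_eq_zero_iff_dvd _ _).mp (Gamma0_mem.mp γ.2)
    rw [hc]
    push_cast
    rw [show (2 : ZMod 2) = 0 from rfl, zero_mul, zero_mul]
  revert h10
  generalize x = y
  revert y
  decide

theorem twoIncl_toTwo (γ : Gamma0 (4 * N)) : twoIncl N (toTwo γ) = toBase γ := rfl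

variable (hN : ¬ 2 ∣ N) {K : Type*} [Field K] (v : Additive (Gamma0 (4 * N)) →+ K)

/-- The value of `v` on an element of `Γ₀(N)` trivial modulo two, zero elsewhere. -/
def evalPull (g : Gamma0 N) : K :=
  if h : redTwo N g = 1 then v (Additive.ofMul (pullFour hN g h)) else 0

theorem evalPull_toBase (d : Gamma0 (4 * N)) :
    evalPull hN v (toBase d) = v (Additive.ofMul d) := by
  rw [evalPull, dif_pos (redTwo_toBase d), pullFour_toBase]

theorem evalPull_mul {g h : Gamma0 N} (hg : redTwo N g = 1) (hh : redTwo N h = 1) :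
    evalPull hN v (g * h) = evalPull hN v g + evalPull hN v h := by
  rw [evalPull, evalPull, evalPull, dif_pos (by rw [map_mul, hg, hh, one_mul]), dif_pos hg,
    dif_pos hh, ← map_add, ← ofMul_mul]
  congr 2
  exact toBase_injective (by simp)

/-- The transfer as a function. -/
def transferTwoFun (γ : Gamma0 (2 * N)) : K :=
  if redTwo N (twoIncl N γ) = 1 then
    evalPull hN v (twoIncl N γ) +
      evalPull hN v (shiftOne N * twoIncl N γ * (shiftOne N)⁻¹)
  else
    evalPull hN v (twoIncl N γ * (shiftOne N)⁻¹) + evalPull hN v (shiftOne N * twoIncl N γ)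

theorem transferTwoFun_mul (γ δ : Gamma0 (2 * N)) :
    transferTwoFun hN v (γ * δ) = transferTwoFun hN v γ + transferTwoFun hN v δ := by
  have hs : shiftTwo ≠ 1 := by decide
  have hss : shiftTwo * shiftTwo = 1 := by decide
  have hinv : shiftTwo⁻¹ = shiftTwo := by decide
  simp only [transferTwoFun, map_mul]
  have hg := redTwo_twoIncl γ
  have hh := redTwo_twoIncl δ
  generalize twoIncl N γ = g at hg ⊢
  generalize twoIncl N δ = h at hh ⊢
  have ht : redTwo N (shiftOne N) = shiftTwo := redTwo_shiftOne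
  generalize shiftOne N = t at ht ⊢
  rcases hg with hg | hg <;> rcases hh with hh | hh <;>
    simp only [hg, hh, one_mul, mul_one, hss, if_pos, if_neg hs]
  · rw [evalPull_mul hN v hg hh, show t * (g * h) * t⁻¹ = (t * g * t⁻¹) * (t * h * t⁻¹) by group,
      evalPull_mul hN v (by simp [hg]) (by simp [hh])]
    abel
  · rw [show g * h * t⁻¹ = g * (h * t⁻¹) by group,
      show t * (g * h) = (t * g * t⁻¹) * (t * h) by group,
      evalPull_mul hN v (h := h * t⁻¹) hg (by simp [hh, ht]),
      evalPull_mul hN v (g := t * g * t⁻¹) (h := t * h) (by simp [hg]) (by simp [hh, ht, hss])]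
    abel
  · rw [show g * h * t⁻¹ = (g * t⁻¹) * (t * h * t⁻¹) by group,
      show t * (g * h) = (t * g) * h by group,
      evalPull_mul hN v (by simp [hg, ht]) (by simp [hh]),
      evalPull_mul hN v (by simp [hg, ht, hss]) hh]
    abel
  · rw [show t * (g * h) * t⁻¹ = (t * g) * (h * t⁻¹) by group,
      show g * h = (g * t⁻¹) * (t * h) by group,
      evalPull_mul hN v (g := g * t⁻¹) (by simp [hg, ht]) (by simp [hh, ht, hss]),
      evalPull_mul hN v (g := t * g) (by simp [hg, ht, hss]) (by simp [hh, ht])]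
    abel

/-- The transfer. -/
def transferTwo : Additive (Gamma0 (2 * N)) →+ K :=
  AddMonoidHom.mk' (fun x => transferTwoFun hN v (Additive.toMul x))
    fun x y => transferTwoFun_mul hN v (Additive.toMul x) (Additive.toMul y)

theorem resTwo_transferTwo :
    resTwo (transferTwo hN v) = v + conjChar hN (shiftOne N) v := by
  refine AddMonoidHom.ext fun x => ?_
  obtain ⟨d, rfl⟩ : ∃ d, Additive.ofMul d = x := ⟨Additive.toMul x, rfl⟩
  rw [resTwo_apply, AddMonoidHom.add_apply, conjChar_apply]
  show transferTwoFun hN v (toTwo d) = _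
  rw [transferTwoFun, twoIncl_toTwo, if_pos (redTwo_toBase d), evalPull_toBase,
    ← toBase_conjBase hN, evalPull_toBase]

end

end FermatAgent.RTLift.Sq.Two
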