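import Fermat.Agent.Descent3.LevelThree
import Fermat.Agent.RTLift.Finish.Interface
import Fermat.Agent.RTLift.Sq.Two.Rotation
import Fermat.Agent.RTLift.Sq.Two.Transfer

/-!
# Residual modularity mod 3: from level `4N` to level `2N`

A mod 3 eigencharacter of `Γ₀(4N) ≅ Γ(2) ∩ Γ₀(N)` gives one fixed by the rotation `C` of order
three. If the transposition does not negate it, its transfer to `Γ₀(2N)` is nonzero. Otherwise it
is `(C - 1)` of a restriction from `Γ₀(2N)`. In both cases the eigensystem occurs on the homology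
of `X₀(2N)`.
-/

set_option autoImplicit false

open WeierstrassCurve CongruenceSubgroup ModularFormClass
open scoped MatrixGroups

noncomputable section

namespace FermatAgent.RTLift.Sq.Two

local notation "ℤbar" => integralClosure ℤ ℂ

/-- An eigenvector in the image of an equivariant map gives a normalized eigenform. -/
theorem exists_eigenform_of_map {M : ℕ} [NeZero M] {K : Type*} [Field K] [CharP K 3] {V : Type*}
    [AddCommGroup V] [Module K V] (η : (Additive (Gamma0 M) →+ K) →ₗ[K] V) {a : ℕ → K} {ψ : V}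
    (hψ : ψ ≠ 0)
    (hcomm : ∀ (ℓ : ℕ) (hℓ : ℓ.Prime) (hℓM : ¬ ℓ ∣ M) (χ : Additive (Gamma0 M) →+ K) (b : K),
      η χ = b • ψ → η (Periods.heckeHomT K M hℓ hℓM χ) = (a ℓ * b) • ψ)
    {y : Additive (Gamma0 M) →+ K} (hk : ModCurveGroup.KillsEP (Gamma0 M) y) (hy : η y = ψ) :
    ∃ (g : CuspForm (Gamma0 M) 2) (𝔪 : Ideal ℤbar), g.IsNormalizedEigenform ∧ 𝔪.IsMaximal ∧
      ((3 : ℕ) : ℤbar) ∈ 𝔪 ∧ ∀ ℓ : ℕ, ℓ.Prime → ¬ ℓ ∣ M →
        ∃ b : ℤbar, (b : ℂ) = qCoeff g ℓ ∧ ∀ c : ℤ, a ℓ = (c : K) → b - (c : ℤbar) ∈ 𝔪 := by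
  set l := ModCurveGroup.homProjLift (Gamma0 M) hk
  let F : (Descent3.HLat M →+ K) → V := fun u => η (u.comp (Descent3.hProj M))
  have hl : F l = (1 : K) • ψ := by
    rw [one_smul, ← hy]
    exact congrArg η (AddMonoidHom.ext fun γ => ModCurveGroup.homProjLift_homProj _ hk γ)
  have hex : ∀ r ∈ Descent3.homAlgebra M, ∃ c : K, ∀ (u : Descent3.HLat M →+ K) (b : K),
      F u = b • ψ → F (u.comp r.toAddMonoidHom) = (c * b) • ψ := by
    intro r hr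
    induction hr using Algebra.adjoin_induction with
    | mem t ht =>
      obtain ⟨p, hp, hpM, rfl⟩ := ht
      refine ⟨a p, fun u b hb => ?_⟩
      show η _ = _
      rw [← Descent3.heckeHomT_comp (R := K) M hp hpM u]
      exact hcomm p hp hpM _ b hb
    | algebraMap n =>
      refine ⟨(n : K), fun u b hb => ?_⟩
      show η _ = _
      have : (u.comp (algebraMap ℤ (Module.End ℤ (Descent3.HLat M)) n).toAddMonoidHom).comp
          (Descent3.hProj M) = (n : K) • u.comp (Descent3.hProj M) :=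
        AddMonoidHom.ext fun x => by simp
      rw [this, map_smul, show η (u.comp (Descent3.hProj M)) = b • ψ from hb, smul_smul]
    | add r s _ _ hr hs =>
      obtain ⟨c, hc⟩ := hr
      obtain ⟨d, hd⟩ := hs
      refine ⟨c + d, fun u b hb => ?_⟩
      show η _ = _
      have : (u.comp (r + s).toAddMonoidHom).comp (Descent3.hProj M) =
          (u.comp r.toAddMonoidHom).comp (Descent3.hProj M) +
            (u.comp s.toAddMonoidHom).comp (Descent3.hProj M) :=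
        AddMonoidHom.ext fun x => by simp
      rw [this, map_add, add_mul, add_smul]
      exact congrArg₂ (· + ·) (hc u b hb) (hd u b hb)
    | mul r s _ _ hr hs =>
      obtain ⟨c, hc⟩ := hr
      obtain ⟨d, hd⟩ := hs
      refine ⟨d * c, fun u b hb => ?_⟩
      rw [show u.comp (r * s).toAddMonoidHom =
          (u.comp r.toAddMonoidHom).comp s.toAddMonoidHom from rfl, mul_assoc]
      exact hd _ _ (hc u b hb)
  choose c hc using hex
  have huniq : ∀ {x y : K}, x • ψ = y • ψ → x = y := fun h => smul_left_injective K hψ h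
  let θf : Descent3.homAlgebra M → K := fun r => c r.1 r.2
  have hval : ∀ r : Descent3.homAlgebra M, F (l.comp r.1.toAddMonoidHom) = θf r • ψ := fun r => by
    rw [hc r.1 r.2 l 1 hl, mul_one]
  let θ : Descent3.homAlgebra M →+* K :=
    { toFun := θf
      map_one' := huniq (by
        rw [← hval, ← hl]
        rfl)
      map_zero' := huniq (by
        rw [← hval, zero_smul]
        show η _ = 0
        refine (congrArg η (AddMonoidHom.ext fun x => ?_)).trans (map_zero η)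
        simp)
      map_add' := fun r s => huniq (by
        rw [← hval, add_smul, ← hval, ← hval]
        show η _ = η _ + η _
        rw [← map_add]
        exact congrArg η (AddMonoidHom.ext fun x => by simp))
      map_mul' := fun r s => huniq (by
        rw [← hval, mul_comm (θf r) (θf s), ← hc s.1 s.2 _ _ (hval r)]
        rfl) }
  have hθ : ∀ (p : ℕ) (hp : p.Prime) (hpM : ¬ p ∣ M), θ (Descent3.algT M hp hpM) = a p :=
    fun p hp hpM => huniq (by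
      show θf _ • ψ = _
      rw [← hval]
      show η _ = _
      rw [show (Descent3.algT M hp hpM).1 = Descent3.homT M hp hpM from rfl,
        ← Descent3.heckeHomT_comp (R := K) M hp hpM l]
      exact (hcomm p hp hpM _ 1 hl).trans (by rw [mul_one]))
  have : Nontrivial (Descent3.homAlgebra M) := θ.domain_nontrivial
  have : IsAddTorsionFree (Descent3.homAlgebra M) :=
    Function.Injective.isAddTorsionFree
      (⟨⟨fun r => (⇑r.1 : Descent3.HLat M → Descent3.HLat M), rfl⟩, fun _ _ => rfl⟩ :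
        Descent3.homAlgebra M →+ (Descent3.HLat M → Descent3.HLat M))
      fun r s h => Subtype.ext (DFunLike.coe_injective h)
  obtain ⟨χ, 𝔪, hmax, h3, hker⟩ := Descent3.exists_lift_of_character θ
  obtain ⟨f, hf, hfT⟩ := Descent3.exists_form_of_character ((algebraMap ℤbar ℂ).comp χ)
  classical
  obtain ⟨g, hg, hgp⟩ := Descent3.exists_normalized_of_goodEigen hf
    (c := fun p => if h : p.Prime ∧ ¬ p ∣ M then (χ (Descent3.algT M h.1 h.2) : ℂ) else 0)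
    (fun p hp hpM => by rw [dif_pos ⟨hp, hpM⟩]; exact hfT p hp hpM)
  refine ⟨g, 𝔪, hg, hmax, h3, fun ℓ hℓ hℓM => ⟨χ (Descent3.algT M hℓ hℓM), ?_, fun m hm => ?_⟩⟩
  · rw [hgp ℓ hℓ hℓM, dif_pos ⟨hℓ, hℓM⟩]
  · rw [← map_intCast χ m, ← map_sub]
    exact hker _ (by rw [map_sub, map_intCast, hθ, hm, sub_self])

variable {N : ℕ} [NeZero N] (hN : ¬ 2 ∣ N) {K : Type*} [Field K]

/-- `conjChar` as a linear map. -/
def conjLin (g : Gamma0 N) :
    (Additive (Gamma0 (4 * N)) →+ K) →ₗ[K] (Additive (Gamma0 (4 * N)) →+ K) where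
  toFun := conjChar hN g
  map_add' _ _ := rfl
  map_smul' _ _ := rfl

omit [NeZero N] in
theorem not_dvd_four_mul {ℓ : ℕ} (hℓ : ℓ.Prime) (h : ¬ ℓ ∣ 2 * N) : ¬ ℓ ∣ 4 * N := fun hd => by
  rw [show 4 * N = 2 * (2 * N) by ring] at hd
  rcases hℓ.dvd_mul.mp hd with h2 | h2
  · exact h ((h2).mul_right N)
  · exact h h2

variable [CharP K 3]

include hN in
/-- The eigensystem of a non-Eisenstein character of `Γ₀(4N)` occurs in an image of `Γ₀(2N)`. -/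
theorem exists_map_of_eigen {a : ℕ → K} {ψ : Additive (Gamma0 (4 * N)) →+ K} (hψ : ψ ≠ 0)
    (he : Descent3.IsEigenHom (4 * N) Set.univ a ψ) {ℓ₀ : ℕ} (hℓ₀ : ℓ₀.Prime)
    (hℓ₀N : ¬ ℓ₀ ∣ 4 * N) (hℓ₀1 : (ℓ₀ : K) = 1) (ha₀ : a ℓ₀ ≠ 2) :
    ∃ (η : (Additive (Gamma0 (2 * N)) →+ K) →ₗ[K] (Additive (Gamma0 (4 * N)) →+ K))
      (φ : Additive (Gamma0 (4 * N)) →+ K) (y : Additive (Gamma0 (2 * N)) →+ K),
      φ ≠ 0 ∧ η y = φ ∧ ∀ (ℓ : ℕ) (hℓ : ℓ.Prime) (hℓN : ¬ ℓ ∣ 2 * N)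
        (χ : Additive (Gamma0 (2 * N)) →+ K) (b : K), η χ = b • φ →
          η (Periods.heckeHomT K (2 * N) hℓ hℓN χ) = (a ℓ * b) • φ := by
  set C := conjLin (K := K) hN (rot N)
  set τ := conjLin (K := K) hN (shiftOne N)
  let Eig : (Additive (Gamma0 (4 * N)) →+ K) → Prop := fun φ =>
    Descent3.IsEigenHom (4 * N) Set.univ a φ
  have hEadd : ∀ φ φ', Eig φ → Eig φ' → Eig (φ + φ') := fun φ φ' h h' ℓ hS hℓ hℓN => by
    rw [map_add, h ℓ hS hℓ hℓN, h' ℓ hS hℓ hℓN, smul_add]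
  have hEsub : ∀ φ φ', Eig φ → Eig φ' → Eig (φ - φ') := fun φ φ' h h' ℓ hS hℓ hℓN => by
    rw [map_sub, h ℓ hS hℓ hℓN, h' ℓ hS hℓ hℓN, smul_sub]
  have hEconj : ∀ g φ, Eig φ → Eig (conjLin hN g φ) := fun g φ h ℓ hS hℓ hℓN => by
    show Periods.heckeHomT K (4 * N) hℓ hℓN (conjChar hN g φ) = _
    rw [heckeHomT_conjChar, h ℓ hS hℓ hℓN]
    rfl
  have h3 : (3 : K) = 0 := by
    rw [show (3 : K) = ((3 : ℕ) : K) by norm_num, CharP.cast_eq_zero]
  have hC3 : ∀ φ, C (C (C φ)) = φ := fun φ => by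
    show conjChar hN _ (conjChar hN _ (conjChar hN _ φ)) = φ
    rw [conjChar_conjChar, conjChar_conjChar, ← mul_assoc, ← pow_three']
    exact conjChar_of_redTwo hN (redTwo_rot_cube hN) φ
  -- an eigencharacter fixed by the rotation
  obtain ⟨φ, hφ0, hφC, hφe⟩ : ∃ φ, φ ≠ 0 ∧ C φ = φ ∧ Eig φ := by
    by_cases h1 : C ψ - ψ = 0
    · exact ⟨ψ, hψ, sub_eq_zero.mp h1, he⟩
    have e1 := hEsub _ _ (hEconj (rot N) ψ he) he
    by_cases h2 : C (C ψ - ψ) - (C ψ - ψ) = 0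
    · exact ⟨C ψ - ψ, h1, sub_eq_zero.mp h2, e1⟩
    refine ⟨_, h2, ?_, hEsub _ _ (hEconj (rot N) _ e1) e1⟩
    simp only [map_sub, hC3]
    have hz : (3 : K) • (C ψ - C (C ψ)) = 0 := by rw [h3, zero_smul]
    rw [show (3 : K) = 1 + 1 + 1 by norm_num, add_smul, add_smul, one_smul] at hz
    linear_combination (norm := abel) hz
  have hT : ∀ (ℓ : ℕ) (hℓ : ℓ.Prime) (hℓN : ¬ ℓ ∣ 2 * N)
      (χ : Additive (Gamma0 (2 * N)) →+ K),
      resTwo (Periods.heckeHomT K (2 * N) hℓ hℓN χ) =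
        Periods.heckeHomT K (4 * N) hℓ (not_dvd_four_mul hℓ hℓN) (resTwo χ) :=
    fun ℓ hℓ hℓN χ => (heckeHomT_resTwo hℓ _ hℓN χ).symm
  by_cases hcase : φ + τ φ = 0
  · obtain ⟨y₀, hy₀⟩ := exists_rot_preimage hN hφC hℓ₀ hℓ₀N
      (hφe ℓ₀ (Set.mem_univ _) hℓ₀ hℓ₀N) hℓ₀1 ha₀
    refine ⟨(C - LinearMap.id).comp resTwo, φ, -transferTwo hN y₀, hφ0, ?_, ?_⟩
    · have hswap : C (τ y₀) = τ (C (C y₀)) := by
        show conjChar hN _ (conjChar hN _ y₀) = conjChar hN _ (conjChar hN _ (conjChar hN _ y₀))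
        simp only [conjChar_conjChar]
        refine conjChar_congr hN ?_ y₀
        simp only [map_mul, redTwo_rot hN, redTwo_shiftOne]
        decide
      have hC0 : C y₀ = y₀ + φ := hy₀
      have hτφ : τ φ = -φ := eq_neg_of_add_eq_zero_right hcase
      have hres : resTwo (-transferTwo hN y₀) = -(y₀ + τ y₀) := by
        rw [map_neg, resTwo_transferTwo]
        rfl
      rw [LinearMap.comp_apply, hres, LinearMap.sub_apply, LinearMap.id_apply, map_neg, map_add,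
        hswap, hC0, map_add, hC0, hφC, map_add, map_add, hτφ]
      have hz : (3 : K) • φ = 0 := by rw [h3, zero_smul]
      rw [show (3 : K) = 1 + 1 + 1 by norm_num, add_smul, add_smul, one_smul] at hz
      abel_nf at hz ⊢
    · intro ℓ hℓ hℓN χ b hb
      simp only [LinearMap.comp_apply, LinearMap.sub_apply, LinearMap.id_apply, hT] at hb ⊢
      rw [show C (Periods.heckeHomT K (4 * N) hℓ (not_dvd_four_mul hℓ hℓN) (resTwo χ)) =
          Periods.heckeHomT K (4 * N) hℓ (not_dvd_four_mul hℓ hℓN) (C (resTwo χ)) from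
        (heckeHomT_conjChar hN hℓ _ _ _).symm, ← map_sub, hb, map_smul,
        hφe ℓ (Set.mem_univ _) hℓ (not_dvd_four_mul hℓ hℓN), smul_smul, mul_comm b]
  · refine ⟨resTwo, φ + τ φ, transferTwo hN φ, hcase, resTwo_transferTwo hN φ, ?_⟩
    intro ℓ hℓ hℓN χ b hb
    rw [hT, hb, map_smul,
      hEadd _ _ hφe (hEconj (shiftOne N) φ hφe) ℓ (Set.mem_univ _) hℓ (not_dvd_four_mul hℓ hℓN),
      smul_smul, mul_comm b]

include hN in
/-- A non-Eisenstein eigensystem mod 3 of `Γ₀(4N)` lifts to level `2N`. -/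
theorem exists_eigenform_two_mul {a : ℕ → K} {ψ : Additive (Gamma0 (4 * N)) →+ K} (hψ : ψ ≠ 0)
    (he : Descent3.IsEigenHom (4 * N) Set.univ a ψ) {ℓ₀ : ℕ}
    (hw : Descent3.IsWitness (4 * N) Set.univ a ℓ₀) :
    ∃ (g : CuspForm (Gamma0 (2 * N)) 2) (𝔪 : Ideal ℤbar), g.IsNormalizedEigenform ∧
      𝔪.IsMaximal ∧ ((3 : ℕ) : ℤbar) ∈ 𝔪 ∧ ∀ ℓ : ℕ, ℓ.Prime → ¬ ℓ ∣ 2 * N →
        ∃ b : ℤbar, (b : ℂ) = qCoeff g ℓ ∧ ∀ c : ℤ, a ℓ = (c : K) → b - (c : ℤbar) ∈ 𝔪 := by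
  have hw2 : Descent3.IsWitness (2 * N) Set.univ a ℓ₀ :=
    hw.of_dvd (Nat.mul_dvd_mul_right (by norm_num) N)
  obtain ⟨η, φ, y, hφ, hy, hη⟩ := exists_map_of_eigen hN hψ he hw.2.1 hw.not_dvd hw.2.2.2.1
    hw.2.2.2.2
  set y' := Periods.heckeHomT K (2 * N) hw.2.1 hw2.not_dvd y - (2 : K) • y
  have hk : ModCurveGroup.KillsEP (Gamma0 (2 * N)) y' := fun γ hγ => by
    rw [AddMonoidHom.sub_apply, AddMonoidHom.smul_apply, smul_eq_mul,
      Descent3.heckeHomT_apply_of_trace_le y hw.2.1 hw2.not_dvd hw2.2.2.1 hw.2.2.2.1 hγ, sub_self]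
  have hy' : η y' = (a ℓ₀ - 2) • φ := by
    rw [map_sub, map_smul, hη ℓ₀ hw.2.1 hw2.not_dvd y 1 (by rw [hy, one_smul]), hy, mul_one,
      sub_smul]
  exact exists_eigenform_of_map η (smul_ne_zero (sub_ne_zero.mpr hw.2.2.2.2) hφ) (a := a)
    (fun ℓ hℓ hℓN χ b hb => by
      rw [hη ℓ hℓ hℓN χ (b * (a ℓ₀ - 2)) (by rw [hb, smul_smul]), smul_smul, mul_assoc])
    hk hy'

/-- The step `q = 2`, `p = 3` of lowering to squarefree level. -/
theorem isResiduallyModularOfLevel_two_mul {W : WeierstrassCurve ℤ}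
    (hS : RTLift.Finish.Setting W 3) {N : ℕ} [NeZero N] (hN : ¬ 2 ∣ N)
    (h : W.IsResiduallyModularOfLevel 3 (4 * N)) : W.IsResiduallyModularOfLevel 3 (2 * N) := by
  obtain ⟨f, 𝔪, hf, hmax, h3, hcong⟩ := h
  let : Field (ℤbar ⧸ 𝔪) := Ideal.Quotient.field 𝔪
  have : CharP (ℤbar ⧸ 𝔪) 3 := (CharP.charP_iff_prime_eq_zero Nat.prime_three).mpr (by
    rw [← map_natCast (Ideal.Quotient.mk 𝔪)]
    exact Ideal.Quotient.eq_zero_iff_mem.mpr h3)
  have : NeZero (4 * N) := ⟨by simp [NeZero.ne N]⟩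
  have : NeZero (3 * (4 * N)) := ⟨by simp [NeZero.ne N]⟩
  obtain ⟨ψ, α, hψ, hα⟩ := Descent3.exists_eigenHom_of_form hf 𝔪 h3
  set a : ℕ → ℤbar ⧸ 𝔪 := fun ℓ => Ideal.Quotient.mk 𝔪 (α ℓ)
  have he : Descent3.IsEigenHom (4 * N) Set.univ a ψ := fun ℓ _ hℓ hℓN =>
    AddMonoidHom.ext fun x => (hα ℓ hℓ hℓN).2 x
  have ha : ∀ ℓ : ℕ, ℓ.Prime → W.IsGoodPrimeFor ℓ → ¬ ℓ ∣ 4 * N → ℓ ≠ 3 →
      a ℓ = ((W.apOfModel ℓ : ℤ) : ℤbar ⧸ 𝔪) := fun ℓ hℓ hg hℓN hℓ3 => by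
    obtain ⟨b, hb, hbm⟩ := hcong ℓ hℓ hg hℓN hℓ3
    have : b = α ℓ := Subtype.ext (hb.trans (hα ℓ hℓ hℓN).1.symm)
    rw [← map_intCast (Ideal.Quotient.mk 𝔪)]
    exact Ideal.Quotient.eq.mpr (this ▸ hbm)
  obtain ⟨ℓ₀, hℓ₀, hgood₀, hone₀, htwo₀⟩ :=
    Descent3.exists_witness_prime hS.disc_ne_zero hS.irreducible (n := 3 * (4 * N))
      (dvd_mul_right 3 _)
  have hone : ∀ {d : ℕ}, d ∣ 3 * (4 * N) → (ℓ₀ : ZMod d) = 1 := fun {d} hd => by
    have := congrArg (ZMod.castHom hd (ZMod d)) hone₀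
    rwa [map_natCast, map_one] at this
  have hnd : ∀ {d : ℕ}, d ∣ 3 * (4 * N) → ¬ ℓ₀ ∣ d := fun {d} hd hℓd => by
    have : Fact ℓ₀.Prime := ⟨hℓ₀⟩
    have h := hone (hℓd.trans hd)
    rw [ZMod.natCast_self] at h
    exact zero_ne_one h
  have h4 : 4 * N ∣ 3 * (4 * N) := dvd_mul_left _ _
  have hℓ₀3 : ℓ₀ ≠ 3 := fun e => hnd (dvd_mul_right 3 _) (e ▸ dvd_rfl)
  have hK1 : (ℓ₀ : ℤbar ⧸ 𝔪) = 1 := by
    have := congrArg (ZMod.castHom (dvd_refl 3) (ℤbar ⧸ 𝔪)) (hone (dvd_mul_right 3 _))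
    rwa [map_natCast, map_one] at this
  have ha₀ : a ℓ₀ ≠ 2 := fun h => htwo₀ (by
    rw [ha ℓ₀ hℓ₀ hgood₀ (hnd h4) hℓ₀3] at h
    refine (CharP.intCast_eq_zero_iff (ℤbar ⧸ 𝔪) 3 _).mp ?_
    rw [Int.cast_sub, h, Int.cast_ofNat, sub_self])
  obtain ⟨g, 𝔪', hg, hmax', h3', hgb⟩ := exists_eigenform_two_mul hN hψ he
    (ℓ₀ := ℓ₀) ⟨Set.mem_univ _, hℓ₀, hone h4, hK1, ha₀⟩
  refine ⟨g, 𝔪', hg, hmax', h3', fun ℓ hℓ hgood hℓN hℓ3 => ?_⟩
  obtain ⟨b, hb, hbc⟩ := hgb ℓ hℓ hℓN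
  exact ⟨b, hb, hbc _ (ha ℓ hℓ hgood (not_dvd_four_mul hℓ hℓN) hℓ3)⟩

end FermatAgent.RTLift.Sq.Two
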