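import Fermat.Agent.ModCurve.Group.PingPong

/-!
# Lifting two characters to a Heisenberg group

Let `U ⊆ SL(2, ℤ)` have finite index and contain `-1`, and let `θ, χ` be characters of `U` with
values in a field of characteristic 3. Then there is `Y : U → K` with
`Y (a * b) = Y a + Y b + θ a * χ b`: the pair `(θ, χ)` lifts to the Heisenberg group, as that has
exponent 3 and `PSL(2, ℤ) = C₂ * C₃`. We induce to `SL(2, ℤ)` and use the universal property.
-/

set_option autoImplicit false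

open ModularGroup
open scoped MatrixGroups

namespace FermatAgent.RTLift.Sq.Two

local notation "R₃" => FermatAgent.ModCurveGroup.R₃

noncomputable section

variable {U : Subgroup SL(2, ℤ)} {K : Type*} [Field K]

/-- The cocycle `(g x).out⁻¹ g x.out` of the coset action. -/
def cosetMove (g : SL(2, ℤ)) (x : SL(2, ℤ) ⧸ U) : U :=
  ⟨(g • x).out⁻¹ * g * x.out, by
    rw [mul_assoc, ← QuotientGroup.eq, QuotientGroup.out_eq']
    conv_lhs => rw [← QuotientGroup.out_eq' x, MulAction.Quotient.smul_mk]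
    rfl⟩

theorem cosetMove_mul (g h : SL(2, ℤ)) (x : SL(2, ℤ) ⧸ U) :
    cosetMove (g * h) x = cosetMove g (h • x) * cosetMove h x := by
  apply Subtype.ext
  simp [cosetMove, mul_smul, mul_assoc]

/-- A character induced to the cosets. -/
def indVal (θ : Additive U →+ K) (g : SL(2, ℤ)) (x : SL(2, ℤ) ⧸ U) : K :=
  θ (Additive.ofMul (cosetMove g x))

variable (θ χ : Additive U →+ K)

theorem indVal_mul (g h : SL(2, ℤ)) (x : SL(2, ℤ) ⧸ U) :
    indVal θ (g * h) x = indVal θ g (h • x) + indVal θ h x := by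
  rw [indVal, cosetMove_mul, ofMul_mul, map_add]
  rfl

theorem indVal_one (x : SL(2, ℤ) ⧸ U) : indVal θ 1 x = 0 := by
  have h := indVal_mul θ 1 1 x
  simpa using h

theorem neg_one_smul_coset (hneg : (-1 : SL(2, ℤ)) ∈ U) (x : SL(2, ℤ) ⧸ U) :
    (-1 : SL(2, ℤ)) • x = x := by
  induction x using QuotientGroup.induction_on with
  | H g =>
    rw [MulAction.Quotient.smul_mk, QuotientGroup.eq]
    simpa [smul_eq_mul] using hneg

theorem indVal_neg_one [CharP K 3] (hneg : (-1 : SL(2, ℤ)) ∈ U) (x : SL(2, ℤ) ⧸ U) :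
    indVal θ (-1) x = 0 := by
  have h := indVal_mul θ (-1) (-1) x
  rw [neg_mul_neg, one_mul, indVal_one, neg_one_smul_coset hneg] at h
  have h2 : (2 : K) * indVal θ (-1) x = 0 := by linear_combination -h
  refine (mul_eq_zero.mp h2).resolve_left fun h2 => ?_
  have : (3 : K) = 0 := by
    rw [show (3 : K) = ((3 : ℕ) : K) by norm_num, CharP.cast_eq_zero]
  exact one_ne_zero (show (1 : K) = 0 by linear_combination this - h2)

/-- The affine permutation attached to `g` and a function on cosets. -/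
def twPerm (g : SL(2, ℤ)) (φ : SL(2, ℤ) ⧸ U → K) : Equiv.Perm ((SL(2, ℤ) ⧸ U) × K × K) where
  toFun v := (g • v.1, v.2.1 + indVal χ g v.1, v.2.2 + φ v.1 + indVal θ g v.1 * v.2.1)
  invFun v := (g⁻¹ • v.1, v.2.1 - indVal χ g (g⁻¹ • v.1),
    v.2.2 - φ (g⁻¹ • v.1) - indVal θ g (g⁻¹ • v.1) * (v.2.1 - indVal χ g (g⁻¹ • v.1)))
  left_inv v := by
    obtain ⟨x, b, z⟩ := v
    refine Prod.ext ?_ (Prod.ext ?_ ?_) <;> simp
    all_goals ring
  right_inv v := by
    obtain ⟨x, b, z⟩ := v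
    refine Prod.ext ?_ (Prod.ext ?_ ?_) <;> simp
    all_goals ring

theorem twPerm_apply (g : SL(2, ℤ)) (φ : SL(2, ℤ) ⧸ U → K) (x : SL(2, ℤ) ⧸ U) (b z : K) :
    twPerm θ χ g φ (x, b, z) = (g • x, b + indVal χ g x, z + φ x + indVal θ g x * b) := rfl

theorem twPerm_mul (g h : SL(2, ℤ)) (φ ψ : SL(2, ℤ) ⧸ U → K) :
    twPerm θ χ g φ * twPerm θ χ h ψ =
      twPerm θ χ (g * h) fun x => φ (h • x) + ψ x + indVal θ g (h • x) * indVal χ h x := by
  refine Equiv.ext fun v => ?_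
  obtain ⟨x, b, z⟩ := v
  simp only [Equiv.Perm.mul_apply, twPerm_apply, mul_smul, indVal_mul]
  refine Prod.ext rfl (Prod.ext ?_ ?_) <;> simp only <;> ring

theorem twPerm_one : twPerm θ χ 1 0 = 1 := by
  refine Equiv.ext fun v => ?_
  obtain ⟨x, b, z⟩ := v
  simp [twPerm_apply, indVal_one]

theorem twPerm_neg_one [CharP K 3] (hneg : (-1 : SL(2, ℤ)) ∈ U) :
    twPerm θ χ (-1) 0 = 1 := by
  refine Equiv.ext fun v => ?_
  obtain ⟨x, b, z⟩ := v
  simp [twPerm_apply, indVal_neg_one _ hneg, neg_one_smul_coset hneg]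

theorem twPerm_inv (g : SL(2, ℤ)) (φ : SL(2, ℤ) ⧸ U → K) :
    ∃ ψ, (twPerm θ χ g φ)⁻¹ = twPerm θ χ g⁻¹ ψ := by
  refine ⟨fun x => -φ (g⁻¹ • x) - indVal θ g (g⁻¹ • x) * indVal χ g⁻¹ x,
    inv_eq_of_mul_eq_one_right ?_⟩
  rw [twPerm_mul, mul_inv_cancel, ← twPerm_one θ χ]
  congr 1
  funext x
  simp only [Pi.zero_apply]
  ring

/-- Lift of the generator of order two. -/
theorem exists_sq_eq_one [CharP K 3] (hneg : (-1 : SL(2, ℤ)) ∈ U) :
    ∃ φ, twPerm θ χ S φ ^ 2 = 1 := by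
  have h2 : (2 : K) ≠ 0 := fun h => by
    have : (3 : K) = 0 := by
      rw [show (3 : K) = ((3 : ℕ) : K) by norm_num, CharP.cast_eq_zero]
    exact one_ne_zero (show (1 : K) = 0 by linear_combination this - h)
  refine ⟨fun x => indVal θ S x * indVal χ S x / 2, ?_⟩
  rw [pow_two, twPerm_mul, ModCurveGroup.S_mul_S, ← twPerm_neg_one θ χ hneg]
  congr 1
  funext x
  have hθ := indVal_mul θ S S x
  have hχ := indVal_mul χ S S x
  rw [ModCurveGroup.S_mul_S, indVal_neg_one _ hneg] at hθ hχ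
  simp only [Pi.zero_apply]
  rw [show indVal θ S (S • x) = -indVal θ S x by linear_combination -hθ,
    show indVal χ S (S • x) = -indVal χ S x by linear_combination -hχ]
  field_simp
  ring

/-- Lift of the generator of order three. -/
theorem exists_cube_eq_one [CharP K 3] [U.FiniteIndex] (hneg : (-1 : SL(2, ℤ)) ∈ U) :
    ∃ φ, twPerm θ χ R₃ φ ^ 3 = 1 := by
  classical
  have : Fintype (SL(2, ℤ) ⧸ U) := Fintype.ofFinite _
  set n := Fintype.equivFin (SL(2, ℤ) ⧸ U)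
  set T : SL(2, ℤ) ⧸ U → K := indVal θ R₃
  set C : SL(2, ℤ) ⧸ U → K := indVal χ R₃
  set W : SL(2, ℤ) ⧸ U → K := fun x =>
    T ((R₃ : SL(2, ℤ)) • (R₃ : SL(2, ℤ)) • x) * C ((R₃ : SL(2, ℤ)) • x) - T x * C x
  set e : SL(2, ℤ) ⧸ U → K := fun x =>
    if n x < n ((R₃ : SL(2, ℤ)) • x) ∧ n x < n ((R₃ : SL(2, ℤ)) • (R₃ : SL(2, ℤ)) • x) then 1 else 0
  have hcyc : ∀ x : SL(2, ℤ) ⧸ U,
      (R₃ : SL(2, ℤ)) • (R₃ : SL(2, ℤ)) • (R₃ : SL(2, ℤ)) • x = x := fun x => by
    rw [← mul_smul, ← mul_smul, ← pow_three', ModCurveGroup.R₃_pow_three,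
      neg_one_smul_coset hneg]
  have hsum : ∀ (η : Additive U →+ K) (x : SL(2, ℤ) ⧸ U),
      indVal η R₃ ((R₃ : SL(2, ℤ)) • (R₃ : SL(2, ℤ)) • x) + indVal η R₃ ((R₃ : SL(2, ℤ)) • x) +
        indVal η R₃ x = 0 := fun η x => by
    have h := indVal_neg_one η hneg x
    rw [← ModCurveGroup.R₃_pow_three, pow_three', indVal_mul, indVal_mul] at h
    exact h
  have hW : ∀ x, W ((R₃ : SL(2, ℤ)) • x) = W x := fun x => by
    simp only [W, T, C, hcyc]
    linear_combination indVal θ R₃ x * hsum χ x -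
      indVal χ R₃ ((R₃ : SL(2, ℤ)) • x) * hsum θ x
  refine ⟨fun x => -(W x * e x), ?_⟩
  rw [pow_three', twPerm_mul, twPerm_mul, ← pow_three', ModCurveGroup.R₃_pow_three,
    ← twPerm_neg_one θ χ hneg]
  congr 1
  funext x
  simp only [Pi.zero_apply, indVal_mul, hW]
  set y := (R₃ : SL(2, ℤ)) • x
  set z := (R₃ : SL(2, ℤ)) • y
  have key : W x * (e x + e y + e z - 1) = 0 := by
    by_cases hfix : y = x
    · have hz : z = x := by simp only [z, hfix]; exact hfix
      have hW0 : W x = 0 := by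
        show T z * C y - T x * C x = 0
        rw [hz, hfix, sub_self]
      rw [hW0, zero_mul]
    · refine mul_eq_zero_of_right _ ?_
      have hxy : n x ≠ n y := fun h => hfix (n.injective h).symm
      have hyz : n y ≠ n z := fun h => hfix
        ((MulAction.injective (R₃ : SL(2, ℤ)) (n.injective h)).symm)
      have hxz : n x ≠ n z := fun h => hfix (by
        have h' := congrArg ((R₃ : SL(2, ℤ)) • ·) (n.injective h)
        simp only [z, y] at h'
        rw [hcyc] at h'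
        exact h')
      have ey : e y = if n y < n z ∧ n y < n x then 1 else 0 := by simp only [e, z, y, hcyc]
      have ez : e z = if n z < n x ∧ n z < n y then 1 else 0 := by simp only [e, z, y, hcyc]
      have ex : e x = if n x < n y ∧ n x < n z then 1 else 0 := rfl
      rw [ex, ey, ez]
      rcases lt_or_gt_of_ne hxy with a | a <;> rcases lt_or_gt_of_ne hyz with b | b <;>
        rcases lt_or_gt_of_ne hxz with c | c <;>
        simp [a, b, c, a.not_gt, b.not_gt, c.not_gt] <;> grind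
  linear_combination -key + indVal χ R₃ x * hsum θ x

/-- The pair `(θ, χ)` lifts to the Heisenberg group. -/
theorem exists_heisenberg_lift [CharP K 3] [U.FiniteIndex] (hneg : (-1 : SL(2, ℤ)) ∈ U) :
    ∃ Y : U → K, ∀ a b : U,
      Y (a * b) = Y a + Y b + θ (Additive.ofMul a) * χ (Additive.ofMul b) := by
  obtain ⟨φS, hS⟩ := exists_sq_eq_one θ χ hneg
  obtain ⟨φR, hR⟩ := exists_cube_eq_one θ χ hneg
  obtain ⟨F, hFS, hFR, -⟩ := ModCurveGroup.exists_hom_of_pow_eq_one _ _ hS hR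
  have hF : ∀ g, ∃ φ, F g = twPerm θ χ g φ := fun g => by
    refine ModCurveGroup.SL2Z_induction (P := fun g => ∃ φ, F g = twPerm θ χ g φ)
      ⟨_, hFS⟩ ⟨_, hFR⟩ ⟨0, by rw [map_one, twPerm_one]⟩ ?_ ?_ g
    · rintro a b ⟨φ, ha⟩ ⟨ψ, hb⟩
      exact ⟨_, by rw [map_mul, ha, hb, twPerm_mul]⟩
    · rintro a ⟨φ, ha⟩
      obtain ⟨ψ, hψ⟩ := twPerm_inv θ χ a φ
      exact ⟨ψ, by rw [map_inv, ha, hψ]⟩
  choose Φ hΦ using hF
  set x₀ : SL(2, ℤ) ⧸ U := QuotientGroup.mk 1
  have hx₀ : ∀ u : U, (u : SL(2, ℤ)) • x₀ = x₀ := fun u => by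
    rw [MulAction.Quotient.smul_mk, QuotientGroup.eq]
    simp [smul_eq_mul]
  have hval : ∀ (η : Additive U →+ K) (u : U),
      indVal η u x₀ = η (Additive.ofMul u) := fun η u => by
    have hc : x₀.out ∈ U := by
      simpa using QuotientGroup.eq.mp ((QuotientGroup.out_eq' x₀).symm)
    have : cosetMove (u : SL(2, ℤ)) x₀ = (⟨x₀.out, hc⟩ : U)⁻¹ * u * ⟨x₀.out, hc⟩ := by
      apply Subtype.ext
      simp [cosetMove, hx₀]
    rw [indVal, this, ofMul_mul, ofMul_mul, ofMul_inv, map_add, map_add, map_neg]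
    abel
  refine ⟨fun u => Φ u x₀, fun a b => ?_⟩
  have h := congrArg (fun p : Equiv.Perm _ => (p (x₀, 0, 0)).2.2)
    ((hΦ ((a : SL(2, ℤ)) * b)).symm.trans ((map_mul F _ _).trans (by rw [hΦ, hΦ, twPerm_mul])))
  simp only [twPerm_apply, mul_zero, add_zero, zero_add, hx₀, hval] at h
  exact h

end

end FermatAgent.RTLift.Sq.Two
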